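/-
helper39, programme MW (S17), brick HM-TENSOR, file 1: Segre and tensor-power formulas for the
absolute logarithmic height `Fermat.Agent.MW.AbsHeightDef10.absLogHeight`
(transfer of Mathlib's `Height.logHeight_fun_mul_eq` / `Height.logHeight_fun_prod_eq`).

* `absLogHeight_fun_mul_eq` : `h (x ⊗ y) = h x + h y` for nonzero tuples.
* `absLogHeight_fun_prod_eq` : `h (⊗_a x a) = ∑ a, h (x a)` for a finite family of nonzero tuples.
* `absLogHeight_fun_pow_eq` : `h (x^{⊗ α}) = card α * h x`.
-/
import Fermat.Agent.MW.AbsHeightDef10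

namespace Fermat.Agent.MW.HM39

open Height Fermat.Agent.MW.AbsHeightDef10 IntermediateField

variable {Ω : Type*} [Field Ω] [CharZero Ω] [Algebra.IsAlgebraic ℚ Ω]

/-- Segre: the absolute height of the multiplication table of two nonzero tuples is the sum of
their absolute heights. -/
theorem absLogHeight_fun_mul_eq {ι ι' : Type*} [Finite ι] [Finite ι'] {x : ι → Ω} (hx : x ≠ 0)
    {y : ι' → Ω} (hy : y ≠ 0) :
    absLogHeight (fun a : ι × ι' => x a.1 * y a.2) = absLogHeight x + absLogHeight y := by
  obtain ⟨K, hKfd, hKS⟩ := exists_finiteDimensional_of_finite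
    (Set.range x ∪ Set.range y) ((Set.finite_range x).union (Set.finite_range y))
  have hNF := numberField_of_finiteDimensional K
  have hxK : ∀ i, x i ∈ K := fun i => hKS (Or.inl ⟨i, rfl⟩)
  have hyK : ∀ i, y i ∈ K := fun i => hKS (Or.inr ⟨i, rfl⟩)
  set x' : ι → K := fun i => ⟨x i, hxK i⟩ with hx'def
  set y' : ι' → K := fun i => ⟨y i, hyK i⟩ with hy'def
  have hx' : x' ≠ 0 := fun h0 => hx (funext fun i => congrArg Subtype.val (congrFun h0 i))
  have hy' : y' ≠ 0 := fun h0 => hy (funext fun i => congrArg Subtype.val (congrFun h0 i))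
  have e1 : (fun a : ι × ι' => x a.1 * y a.2) =
      fun a => algebraMap K Ω ((fun a : ι × ι' => x' a.1 * y' a.2) a) := rfl
  have e2 : x = fun i => algebraMap K Ω (x' i) := rfl
  have e3 : y = fun i => algebraMap K Ω (y' i) := rfl
  rw [e1, absLogHeight_map (algebraMap K Ω) (fun a : ι × ι' => x' a.1 * y' a.2)]
  conv_rhs => rw [e2, e3]
  rw [absLogHeight_map (algebraMap K Ω) x', absLogHeight_map (algebraMap K Ω) y',
    logHeight_fun_mul_eq hx' hy', add_div]

universe u v

/-- Segre for finitely many factors. -/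
theorem absLogHeight_fun_prod_eq {α : Type u} [Fintype α] {ι : α → Type v} [∀ a, Finite (ι a)]
    {x : (a : α) → ι a → Ω} (hx : ∀ a, x a ≠ 0) :
    absLogHeight (fun I : (a : α) → ι a => ∏ a, x a (I a)) = ∑ a, absLogHeight (x a) := by
  obtain ⟨K, hKfd, hKS⟩ := exists_finiteDimensional_of_finite
    (Set.range fun p : (Σ a, ι a) => x p.1 p.2) (Set.finite_range _)
  have hNF := numberField_of_finiteDimensional K
  have hxK : ∀ a i, x a i ∈ K := fun a i => hKS ⟨⟨a, i⟩, rfl⟩
  set x' : (a : α) → ι a → K := fun a i => ⟨x a i, hxK a i⟩ with hx'def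
  have hx' : ∀ a, x' a ≠ 0 := fun a h0 =>
    hx a (funext fun i => congrArg Subtype.val (congrFun h0 i))
  have e1 : (fun I : (a : α) → ι a => ∏ a, x a (I a)) =
      fun I => algebraMap K Ω ((fun I : (a : α) → ι a => ∏ a, x' a (I a)) I) := by
    funext I
    rw [map_prod]
    rfl
  have e2 : ∀ a, x a = fun i => algebraMap K Ω (x' a i) := fun a => rfl
  rw [e1, absLogHeight_map (algebraMap K Ω) (fun I : (a : α) → ι a => ∏ a, x' a (I a)),
    logHeight_fun_prod_eq hx', Finset.sum_div]
  refine Finset.sum_congr rfl fun a _ => ?_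
  conv_rhs => rw [e2 a]
  rw [absLogHeight_map (algebraMap K Ω) (x' a)]

/-- Tensor powers: the absolute height of all `α`-fold products of coordinates of `x` is
`card α` times the absolute height of `x`. -/
theorem absLogHeight_fun_pow_eq {α : Type u} [Fintype α] {ι : Type v} [Finite ι]
    {x : ι → Ω} (hx : x ≠ 0) :
    absLogHeight (fun I : α → ι => ∏ a, x (I a)) = Fintype.card α * absLogHeight x := by
  have h := absLogHeight_fun_prod_eq (α := α) (ι := fun _ => ι) (x := fun _ => x) (fun _ => hx)
  rw [h, Finset.sum_const, Finset.card_univ, nsmul_eq_mul]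

end Fermat.Agent.MW.HM39
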