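/-
helper39, programme MW (S17), brick HM-TENSOR, file 2: products and tensor powers of families in
the abstract height machine of `HM73/Family.lean`.

* `genAt_mul`, `famHeight_mul` : `h_{s ⊗ t}(p) = h_s(p) + h_t(p)`.
* `genAt_pow`, `famHeight_pow` : `h_{s^{⊗ α}}(p) = card α * h_s(p)`.
* `genAt_map`, `isGenAt_map` : the image family under a field map is generated at a point lying over.
-/
import Fermat.Agent.MW.HM73.Family
import Fermat.Agent.MW.HM39.AbsSegre

namespace Fermat.Agent.MW.HM39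

open Fermat.Agent.MW.AbsHeightDef10 Fermat.Agent.MW.HM73

variable {k K : Type*} [Field k] [Field K] [Algebra k K] {ι ι' : Type*}

/-- The product family `(s a * t b)_{(a, b)}` is generated by `s i * t j`. -/
theorem genAt_mul (p : EvalPt k K) (s : ι → K) (t : ι' → K) (i : ι) (j : ι')
    (hs : GenAt p s i) (ht : GenAt p t j) :
    GenAt p (fun a : ι × ι' => s a.1 * t a.2) (i, j) := by
  refine ⟨mul_ne_zero hs.1 ht.1, fun a => ?_⟩
  have h1 := hs.1
  have h2 := ht.1
  have e : s a.1 * t a.2 / (s i * t j) = s a.1 / s i * (t a.2 / t j) := by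
    field_simp
  show s a.1 * t a.2 / (s i * t j) ∈ p.O
  rw [e]
  exact p.O.mul_mem (hs.2 a.1) (ht.2 a.2)

theorem valueVec_mul (p : EvalPt k K) (s : ι → K) (t : ι' → K) (i : ι) (j : ι')
    (hs : GenAt p s i) (ht : GenAt p t j) :
    valueVec p (fun a : ι × ι' => s a.1 * t a.2) (i, j) (genAt_mul p s t i j hs ht) =
      fun a : ι × ι' => valueVec p s i hs a.1 * valueVec p t j ht a.2 := by
  funext a
  show p.ev ⟨s a.1 * t a.2 / (s i * t j), _⟩ = p.ev ⟨s a.1 / s i, _⟩ * p.ev ⟨t a.2 / t j, _⟩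
  rw [← map_mul]
  congr 1
  apply Subtype.ext
  have h1 := hs.1
  have h2 := ht.1
  show s a.1 * t a.2 / (s i * t j) = s a.1 / s i * (t a.2 / t j)
  field_simp

/-- **Additivity**: `h_{s ⊗ t}(p) = h_s(p) + h_t(p)`. -/
theorem famHeight_mul [CharZero k] [Algebra.IsAlgebraic ℚ k] [Finite ι] [Finite ι']
    (p : EvalPt k K) (s : ι → K) (t : ι' → K) (i : ι) (j : ι')
    (hs : GenAt p s i) (ht : GenAt p t j) :
    famHeight p (fun a : ι × ι' => s a.1 * t a.2) = famHeight p s + famHeight p t := by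
  rw [famHeight_eq p _ (i, j) (genAt_mul p s t i j hs ht), famHeight_eq p s i hs,
    famHeight_eq p t j ht, valueVec_mul]
  exact absLogHeight_fun_mul_eq (valueVec_ne_zero p s i hs) (valueVec_ne_zero p t j ht)

/-- The `α`-fold tensor power family `(∏ a, s (I a))_I` is generated by `∏ a, s i`. -/
theorem genAt_pow {α : Type*} [Fintype α] (p : EvalPt k K) (s : ι → K) (i : ι)
    (hs : GenAt p s i) :
    GenAt p (fun I : α → ι => ∏ a, s (I a)) (fun _ => i) := by
  refine ⟨Finset.prod_ne_zero_iff.mpr fun _ _ => hs.1, fun I => ?_⟩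
  show (∏ a, s (I a)) / (∏ _a : α, s i) ∈ p.O
  rw [← Finset.prod_div_distrib]
  exact p.O.prod_mem fun a _ => hs.2 (I a)

theorem valueVec_pow {α : Type*} [Fintype α] (p : EvalPt k K) (s : ι → K) (i : ι)
    (hs : GenAt p s i) :
    valueVec p (fun I : α → ι => ∏ a, s (I a)) (fun _ => i) (genAt_pow p s i hs) =
      fun I : α → ι => ∏ a, valueVec p s i hs (I a) := by
  funext I
  show p.ev ⟨(∏ a, s (I a)) / (∏ _a : α, s i), _⟩ = ∏ a, p.ev ⟨s (I a) / s i, _⟩
  rw [← map_prod]
  congr 1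
  apply Subtype.ext
  rw [SubmonoidClass.coe_finsetProd]
  show (∏ a, s (I a)) / (∏ _a : α, s i) = ∏ a, s (I a) / s i
  rw [← Finset.prod_div_distrib]

/-- **Tensor powers**: `h_{s^{⊗ α}}(p) = card α * h_s(p)`. -/
theorem famHeight_pow {α : Type*} [Fintype α] [CharZero k] [Algebra.IsAlgebraic ℚ k] [Finite ι]
    (p : EvalPt k K) (s : ι → K) (i : ι) (hs : GenAt p s i) :
    famHeight p (fun I : α → ι => ∏ a, s (I a)) = Fintype.card α * famHeight p s := by
  rw [famHeight_eq p _ (fun _ => i) (genAt_pow p s i hs), famHeight_eq p s i hs, valueVec_pow]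
  exact absLogHeight_fun_pow_eq (valueVec_ne_zero p s i hs)

/-- `IsGenAt` is inherited by pulled-back families at points lying over. -/
theorem isGenAt_map {K' : Type*} [Field K'] [Algebra k K'] {φ : K →ₐ[k] K'} {p' : EvalPt k K'}
    {p : EvalPt k K} (h : LiesOver φ p' p) {s : ι → K} (hs : IsGenAt p s) :
    IsGenAt p' (fun j => φ (s j)) := by
  obtain ⟨i, hi⟩ := hs
  exact ⟨i, h.genAt hi⟩

end Fermat.Agent.MW.HM39
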